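import Fermat.Agent.MurtySaradha.Main
import Mathlib.Analysis.SpecialFunctions.Trigonometric.Basic

/-!
# Okada's theorem on cotangents

By Gauss's formula `π cot (π a / q) = q ∑ (1_a - 1_(q - a)) (n) / n`, so a rational relation between
these cotangents is an odd rational `f` on the units mod `q` with `∑ f n / n = 0`, and `f = 0` by
Baker, Birch and Wirsing.
-/

set_option autoImplicit false

noncomputable section

open Finset
open scoped Real

namespace FA.Okada

theorem digamma_reflection {a q : ℕ} (ha : 0 < a) (haq : a < q) :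
    Complex.digamma (((q - a : ℕ) : ℂ) / q) - Complex.digamma ((a : ℂ) / q) =
      ((π * Real.cot (π * a / q) : ℝ) : ℂ) := by
  have hq : (q : ℝ) ≠ 0 := Nat.cast_ne_zero.2 (by omega)
  rw [GaussDigamma.gauss_digamma (show 0 < q - a by omega) (by omega),
    GaussDigamma.gauss_digamma ha haq, ← Complex.ofReal_sub, Complex.ofReal_inj,
    Nat.cast_sub haq.le]
  have h1 : π * ((q : ℝ) - a) / q = π - π * a / q := by field_simp
  have h2 : ∀ k : ℕ,
      Real.cos (2 * π * k * ((q : ℝ) - a) / q) = Real.cos (2 * π * k * a / q) := fun k => by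
    rw [show 2 * π * k * ((q : ℝ) - a) / q = k * (2 * π) - 2 * π * k * a / q by field_simp,
      Real.cos_nat_mul_two_pi_sub]
  rw [h1, show Real.cot (π - π * a / q) = -Real.cot (π * a / q) by
    rw [Real.cot_eq_cos_div_sin, Real.cot_eq_cos_div_sin, Real.cos_pi_sub, Real.sin_pi_sub,
      neg_div]]
  simp only [h2]
  ring

variable {q : ℕ} [NeZero q]

theorem classDiff_reflect {a : ℕ} (ha : 0 < a) (haq : a < q) :
    (q : ℂ) * MurtySaradha.classDiff (q := q) a (q - a) =
      ((π * Real.cot (π * a / q) : ℝ) : ℂ) := by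
  rw [MurtySaradha.classDiff_eq ha haq.le (by omega) (by omega), digamma_reflection ha haq]

/-- A rational relation between the cotangents is trivial. -/
theorem coeff_eq_zero {A : Finset ℕ} (hA : ∀ a ∈ A, 1 ≤ a ∧ 2 * a < q ∧ a.Coprime q) {g : ℕ → ℚ}
    (h : ∑ a ∈ A, (g a : ℝ) * Real.cot (π * a / q) = 0) {b : ℕ} (hb : b ∈ A) : g b = 0 := by
  set ind : ℕ → ZMod q → ℚ := fun a x =>
    (if x = (a : ZMod q) then 1 else 0) - if x = ((q - a : ℕ) : ZMod q) then 1 else 0 with hind
  set f : ZMod q → ℚ := fun x => ∑ a ∈ A, g a * ind a x with hf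
  have hsum : ∑ x, f x = 0 := by
    rw [hf, Finset.sum_comm]
    refine Finset.sum_eq_zero fun a _ => ?_
    rw [← Finset.mul_sum, hind, Finset.sum_sub_distrib]
    simp
  have hsupp : ∀ x, ¬IsUnit x → f x = 0 := fun x hx => Finset.sum_eq_zero fun a ha => by
    obtain ⟨-, h2, hc⟩ := hA a ha
    have hu : IsUnit (a : ZMod q) := (ZMod.isUnit_iff_coprime a q).2 hc
    have hu' : IsUnit (((q - a : ℕ) : ℕ) : ZMod q) := by
      rw [Nat.cast_sub (by omega), ZMod.natCast_self, zero_sub]
      exact hu.neg
    rw [hind]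
    simp only
    rw [if_neg (fun e => hx (by rw [e]; exact hu)), if_neg (fun e => hx (by rw [e]; exact hu')),
      sub_zero, mul_zero]
  have hv : PeriodicValue.logValue (fun x => (f x : ℂ)) = 0 := by
    have e : (fun x => (f x : ℂ)) = fun x => ∑ a ∈ A, (g a : ℂ) *
        (MurtySaradha.classInd a x - MurtySaradha.classInd (q - a) x) := by
      funext x
      simp only [hf, hind, MurtySaradha.classInd, Rat.cast_sum, Rat.cast_mul, Rat.cast_sub,
        apply_ite (Rat.cast : ℚ → ℂ), Rat.cast_one, Rat.cast_zero]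
    rw [e, PeriodicValue.logValue_sum]
    have hq : (q : ℂ) ≠ 0 := Nat.cast_ne_zero.2 (NeZero.ne q)
    have h' := congrArg (fun t : ℝ => ((π * t : ℝ) : ℂ)) h
    simp only [Finset.mul_sum, Complex.ofReal_sum, mul_zero, Complex.ofReal_zero] at h'
    refine (mul_right_inj' hq).1 ?_
    rw [Finset.mul_sum, mul_zero, ← h']
    refine Finset.sum_congr rfl fun a ha => ?_
    obtain ⟨h1, h2, -⟩ := hA a ha
    rw [mul_left_comm, ← MurtySaradha.classDiff, classDiff_reflect h1 (by omega)]
    push_cast
    ring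
  have h0 := congrFun (PeriodicValue.eq_zero_of_logValue hsupp hsum hv) (b : ZMod q)
  obtain ⟨-, hb2, -⟩ := hA b hb
  rw [hf] at h0
  simp only [hind, Pi.zero_apply] at h0
  rw [Finset.sum_eq_single b, if_pos rfl, if_neg] at h0
  · simpa using h0
  · intro e
    rw [ZMod.natCast_eq_natCast_iff] at e
    have := e.eq_of_lt_of_lt (by omega) (by have := (hA b hb).1; omega)
    omega
  · intro a ha hab
    obtain ⟨h1, h2, -⟩ := hA a ha
    rw [if_neg, if_neg, sub_zero, mul_zero]
    · intro e
      rw [ZMod.natCast_eq_natCast_iff] at e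
      have := e.eq_of_lt_of_lt (by omega) (by omega)
      omega
    · intro e
      rw [ZMod.natCast_eq_natCast_iff] at e
      exact hab (e.eq_of_lt_of_lt (by omega) (by omega)).symm
  · exact fun hn => absurd hb hn

end FA.Okada

end
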